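/-
S18, package RED (helper73): the formal reduction of S18 to
* `TStatement` : the Kummer-type statement "a function congruent to 1 whose divisor is divisible
  by `m` is, up to a function without zeros and poles, an `m`-th power" (stated pointwise in `ord`),
* `ConstStatement` : "an element of the reduced function field without zeros and poles is constant".
The hypothesis `ReductionInputsModL` is used here and nowhere else.
-/
import Fermat.Statements.S18

set_option autoImplicit false

open HahnSeries IntermediateField AlgebraicCurve ModularCurve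

namespace Fermat.Agent.S18.H73

noncomputable section

section General

variable {L : Type*} [Field L] [Algebra ℚ L] (A : ValuationSubring L)
variable {k : Type*} [Field k] (π : A →+* k) (N : ℕ)

/-- The series over `A` that lie in the function field and whose reduction lies in the reduced
function field. -/
def intSubring : Subring (LaurentSeries A) where
  carrier := {y | coeffMap A.subtype y ∈ laurentBaseChange L (modularFunctionFieldFull N) ∧
    coeffMap π y ∈ modularFunctionFieldFullC k N}
  mul_mem' := by
    rintro a b ⟨ha, ha'⟩ ⟨hb, hb'⟩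
    exact ⟨by rw [map_mul]; exact mul_mem ha hb, by rw [map_mul]; exact mul_mem ha' hb'⟩
  one_mem' := ⟨by rw [map_one]; exact one_mem _, by rw [map_one]; exact one_mem _⟩
  add_mem' := by
    rintro a b ⟨ha, ha'⟩ ⟨hb, hb'⟩
    exact ⟨by rw [map_add]; exact add_mem ha hb, by rw [map_add]; exact add_mem ha' hb'⟩
  zero_mem' := ⟨by rw [map_zero]; exact zero_mem _, by rw [map_zero]; exact zero_mem _⟩
  neg_mem' := by
    rintro a ⟨ha, ha'⟩
    exact ⟨by rw [map_neg]; exact neg_mem ha, by rw [map_neg]; exact neg_mem ha'⟩

variable {A π N}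

theorem mem_intSubring {y : LaurentSeries A} :
    y ∈ intSubring A π N ↔
      coeffMap A.subtype y ∈ laurentBaseChange L (modularFunctionFieldFull N) ∧
        coeffMap π y ∈ modularFunctionFieldFullC k N :=
  Iff.rfl

/-- The generic fibre element of an integral series. -/
def gen (y : intSubring A π N) : laurentBaseChange L (modularFunctionFieldFull N) :=
  ⟨coeffMap A.subtype (y : LaurentSeries A), y.2.1⟩

/-- The special fibre element (reduction) of an integral series. -/
def red (y : intSubring A π N) : modularFunctionFieldFullC k N :=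
  ⟨coeffMap π (y : LaurentSeries A), y.2.2⟩

@[simp] theorem gen_one : gen (1 : intSubring A π N) = 1 := Subtype.ext (map_one _)
@[simp] theorem red_one : red (1 : intSubring A π N) = 1 := Subtype.ext (map_one _)
@[simp] theorem gen_mul (x y : intSubring A π N) : gen (x * y) = gen x * gen y :=
  Subtype.ext (map_mul _ _ _)
@[simp] theorem red_mul (x y : intSubring A π N) : red (x * y) = red x * red y :=
  Subtype.ext (map_mul _ _ _)
@[simp] theorem red_add (x y : intSubring A π N) : red (x + y) = red x + red y :=
  Subtype.ext (map_add _ _ _)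
@[simp] theorem red_neg (x : intSubring A π N) : red (-x) = -red x :=
  Subtype.ext (map_neg _ _)
@[simp] theorem gen_pow (x : intSubring A π N) (n : ℕ) : gen (x ^ n) = gen x ^ n :=
  Subtype.ext (map_pow _ _ _)
@[simp] theorem red_pow (x : intSubring A π N) (n : ℕ) : red (x ^ n) = red x ^ n :=
  Subtype.ext (map_pow _ _ _)

omit [Algebra ℚ L] in
theorem coeffMap_subtype_injective :
    Function.Injective (coeffMap (A.subtype) : LaurentSeries A → LaurentSeries L) := by
  intro x y hxy
  ext n
  have h := congrArg (fun z : LaurentSeries L => z.coeff n) hxy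
  simp only [coeffMap_coeff] at h
  exact h

theorem gen_ne_zero_of_red_ne_zero {y : intSubring A π N} (hy : red y ≠ 0) : gen y ≠ 0 := by
  intro h
  apply hy
  have h1 : coeffMap A.subtype (y : LaurentSeries A) = 0 := congrArg Subtype.val h
  have h2 : (y : LaurentSeries A) = 0 :=
    coeffMap_subtype_injective (by rw [h1, map_zero])
  exact Subtype.ext (by show coeffMap π (y : LaurentSeries A) = 0; rw [h2, map_zero])

end General

section Ord

variable {K F : Type*} [Field K] [Field F] [Algebra K F] (v : Place K F)

theorem ord_algebraMap_of_ne_zero {a : K} (ha : a ≠ 0) : v.ord (algebraMap K F a) = 0 := by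
  have hmul : (⟨algebraMap K F a, v.algebraMap_mem' a⟩ : v.toValuationSubring) *
      ⟨algebraMap K F a⁻¹, v.algebraMap_mem' a⁻¹⟩ = 1 := by
    apply Subtype.ext
    show algebraMap K F a * algebraMap K F a⁻¹ = 1
    rw [← map_mul, mul_inv_cancel₀ ha, map_one]
  exact v.ord_coe_unit (Units.mkOfMulEqOne _ _ hmul)

theorem ord_pow_nat (f : F) (n : ℕ) : v.ord (f ^ n) = n * v.ord f := by
  have h := v.ord_zpow f (n : ℤ)
  simpa using h

end Ord

section Statements

variable {L : Type*} [Field L] [Algebra ℚ L] (A : ValuationSubring L)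
variable {k : Type*} [Field k] (π : A →+* k) (N : ℕ)

/-- **Theorem T** (Kummer statement), pointwise in `ord`: if `U, V` are series over `A` lying in the
function field, with the same nonzero reduction (lying in the reduced function field), and all
orders of `U / V` are divisible by `m`, then the divisor of `U / V` is `m` times the divisor of a
function. -/
def TStatementAlong (m : ℕ) : Prop :=
  ∀ (U V : LaurentSeries A)
    (hU : coeffMap A.subtype U ∈ laurentBaseChange L (modularFunctionFieldFull N))
    (hV : coeffMap A.subtype V ∈ laurentBaseChange L (modularFunctionFieldFull N)),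
    coeffMap π U = coeffMap π V → coeffMap π U ≠ 0 →
    coeffMap π U ∈ modularFunctionFieldFullC k N →
    (∀ P : Place L (laurentBaseChange L (modularFunctionFieldFull N)),
      (m : ℤ) ∣
        P.ord (⟨coeffMap A.subtype U, hU⟩ : laurentBaseChange L (modularFunctionFieldFull N)) -
        P.ord (⟨coeffMap A.subtype V, hV⟩ : laurentBaseChange L (modularFunctionFieldFull N))) →
    ∃ w : laurentBaseChange L (modularFunctionFieldFull N), w ≠ 0 ∧
      ∀ P : Place L (laurentBaseChange L (modularFunctionFieldFull N)),
        P.ord (⟨coeffMap A.subtype U, hU⟩ : laurentBaseChange L (modularFunctionFieldFull N)) -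
          P.ord (⟨coeffMap A.subtype V, hV⟩ : laurentBaseChange L (modularFunctionFieldFull N)) =
            m * P.ord w

/-- "No zeros and no poles implies constant" in the reduced function field. -/
def ConstStatement (k : Type*) [Field k] (N : ℕ) : Prop :=
  ∀ f : modularFunctionFieldFullC k N, f ≠ 0 →
    (∀ Q : Place k (modularFunctionFieldFullC k N), Q.ord f = 0) →
    ∃ c : k, f = algebraMap k (modularFunctionFieldFullC k N) c

end Statements

section Lift

variable {L : Type*} [Field L] [Algebra ℚ L] {A : ValuationSubring L}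
variable {k : Type*} [Field k] {π : A →+* k} {N : ℕ}

/-- Constants of `A` as integral series. -/
def constInt (a : A) : intSubring A π N :=
  ⟨HahnSeries.single 0 a, by
    rw [coeffMap_single]
    have h : (HahnSeries.single (0 : ℤ) (A.subtype a) : LaurentSeries L) =
        algebraMap L (LaurentSeries L) (a : L) := (algebraMap_laurentSeries_eq_single L _).symm
    rw [h]
    exact (laurentBaseChange L (modularFunctionFieldFull N)).algebraMap_mem _, by
    rw [coeffMap_single]
    have h : (HahnSeries.single (0 : ℤ) (π a) : LaurentSeries k) =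
        algebraMap k (LaurentSeries k) (π a) := (algebraMap_laurentSeries_eq_single k _).symm
    rw [h]
    exact (modularFunctionFieldFullC k N).algebraMap_mem _⟩

theorem gen_constInt (a : A) :
    gen (constInt (π := π) (N := N) a) =
      algebraMap L (laurentBaseChange L (modularFunctionFieldFull N)) (a : L) := by
  apply Subtype.ext
  show coeffMap A.subtype (HahnSeries.single 0 a) = algebraMap L (LaurentSeries L) (a : L)
  rw [coeffMap_single, algebraMap_laurentSeries_eq_single]
  rfl

theorem red_constInt (a : A) :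
    red (constInt (π := π) (N := N) a) =
      algebraMap k (modularFunctionFieldFullC k N) (π a) := by
  apply Subtype.ext
  show coeffMap π (HahnSeries.single 0 a) = algebraMap k (LaurentSeries k) (π a)
  rw [coeffMap_single, algebraMap_laurentSeries_eq_single]

/-- The generators `j(q^d)`, `d ∣ N`, as integral series. -/
def jInt (d : ℕ) [NeZero d] (hd : d ∣ N) : intSubring A π N :=
  ⟨qExpand A d (jqModC A), by
    rw [coeffMap_qExpand, coeffMap_jqModC]
    have h : coeffEmb L (qExpand ℚ d jq) = qExpand L d (jqModC L) := by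
      rw [coeffEmb, coeffMap_qExpand, ← jqModC_rat, coeffMap_jqModC]
    rw [← h]
    exact coeffEmb_mem_laurentBaseChange L (jqd_mem_full N hd), by
    rw [coeffMap_qExpand, coeffMap_jqModC]
    exact jqModCd_mem_full k N hd⟩

theorem red_jInt (d : ℕ) [NeZero d] (hd : d ∣ N) :
    ((red (jInt (A := A) (π := π) d hd) : modularFunctionFieldFullC k N) : LaurentSeries k) =
      qExpand k d (jqModC k) := by
  show coeffMap π (qExpand A d (jqModC A)) = _
  rw [coeffMap_qExpand, coeffMap_jqModC]

/-- Every element of the reduced function field is a quotient of reductions of integral series. -/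
theorem exists_lift (hπ : Function.Surjective π) {φ : LaurentSeries k}
    (hφ : φ ∈ modularFunctionFieldFullC k N) :
    ∃ P Q : intSubring A π N, red Q ≠ 0 ∧
      φ * ((red Q : modularFunctionFieldFullC k N) : LaurentSeries k) =
        ((red P : modularFunctionFieldFullC k N) : LaurentSeries k) := by
  have hne : ∀ Q : intSubring A π N, red Q ≠ 0 →
      ((red Q : modularFunctionFieldFullC k N) : LaurentSeries k) ≠ 0 := fun Q hQ h =>
    hQ (Subtype.ext h)
  unfold modularFunctionFieldFullC at hφ
  induction hφ using IntermediateField.adjoin_induction with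
  | mem x hx =>
    obtain ⟨d, hd0, hd, rfl⟩ := hx
    refine ⟨jInt d hd, 1, ?_, ?_⟩
    · rw [red_one]; exact one_ne_zero
    · rw [red_one, red_jInt]
      simp
  | algebraMap c =>
    obtain ⟨a, rfl⟩ := hπ c
    refine ⟨constInt a, 1, ?_, ?_⟩
    · rw [red_one]; exact one_ne_zero
    · rw [red_one, red_constInt]
      simp
  | add x y _ _ hx hy =>
    obtain ⟨P, Q, hQ, hPQ⟩ := hx
    obtain ⟨P', Q', hQ', hPQ'⟩ := hy
    refine ⟨P * Q' + P' * Q, Q * Q', ?_, ?_⟩
    · rw [red_mul]; exact mul_ne_zero hQ hQ'
    · rw [red_mul, red_add, red_mul, red_mul]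
      push_cast
      rw [← hPQ, ← hPQ']
      ring
  | inv x _ hx =>
    obtain ⟨P, Q, hQ, hPQ⟩ := hx
    by_cases hP : red P = 0
    · have hx0 : x = 0 := by
        rw [hP] at hPQ
        rcases mul_eq_zero.mp hPQ with h | h
        · exact h
        · exact absurd h (hne Q hQ)
      refine ⟨0, 1, ?_, ?_⟩
      · rw [red_one]; exact one_ne_zero
      · rw [hx0, inv_zero, zero_mul]
        show (0 : LaurentSeries k) = coeffMap π ((0 : intSubring A π N) : LaurentSeries A)
        simp
    · refine ⟨Q, P, hP, ?_⟩
      have hx0 : x ≠ 0 := by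
        rintro rfl
        rw [zero_mul] at hPQ
        exact hP (Subtype.ext hPQ.symm)
      rw [← hPQ]
      field_simp
  | mul x y _ _ hx hy =>
    obtain ⟨P, Q, hQ, hPQ⟩ := hx
    obtain ⟨P', Q', hQ', hPQ'⟩ := hy
    refine ⟨P * P', Q * Q', ?_, ?_⟩
    · rw [red_mul]; exact mul_ne_zero hQ hQ'
    · rw [red_mul, red_mul]
      push_cast
      rw [← hPQ, ← hPQ']
      ring

end Lift

section Core

variable {L : Type*} [Field L] [Algebra ℚ L] {A : ValuationSubring L}
variable {k : Type*} [Field k] {π : A →+* k} {N : ℕ}
variable {r : Place L (laurentBaseChange L (modularFunctionFieldFull N)) →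
  Place k (modularFunctionFieldFullC k N)}

/-- Unpacking "generated by integral principal divisors": an element of the closure is the
divisor of a quotient `Y₁ / Y₂` of integral series, and its image under `r` is the divisor of the
quotient of the reductions. -/
theorem exists_pair_of_mem_closure (hr : IsPlaceReductionAlong A π N r)
    {E : Divisor L (laurentBaseChange L (modularFunctionFieldFull N))}
    (hE : E ∈ AddSubgroup.closure (integralPrincipalDivisors A π N)) :
    ∃ Y₁ Y₂ : intSubring A π N, red Y₁ ≠ 0 ∧ red Y₂ ≠ 0 ∧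
      (∀ P, E P = P.ord (gen Y₁) - P.ord (gen Y₂)) ∧
      (∀ Q, Finsupp.mapDomain r E Q = Q.ord (red Y₁) - Q.ord (red Y₂)) := by
  induction hE using AddSubgroup.closure_induction with
  | mem E hE =>
    obtain ⟨y, hy, hyk, hne, hEy⟩ := hE
    refine ⟨⟨y, hy, hyk⟩, 1, fun h => hne (congrArg Subtype.val h), ?_, fun P => ?_, fun Q => ?_⟩
    · rw [red_one]; exact one_ne_zero
    · rw [gen_one, Place.ord_one, sub_zero]
      exact hEy P
    · rw [red_one, Place.ord_one, sub_zero]
      exact hr.2 y hy hyk hne E hEy Q
  | zero =>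
    refine ⟨1, 1, ?_, ?_, fun P => ?_, fun Q => ?_⟩
    · rw [red_one]; exact one_ne_zero
    · rw [red_one]; exact one_ne_zero
    · simp
    · simp
  | add E E' _ _ hE hE' =>
    obtain ⟨Y₁, Y₂, h1, h2, hP, hQ⟩ := hE
    obtain ⟨Y₁', Y₂', h1', h2', hP', hQ'⟩ := hE'
    refine ⟨Y₁ * Y₁', Y₂ * Y₂', ?_, ?_, fun P => ?_, fun Q => ?_⟩
    · rw [red_mul]; exact mul_ne_zero h1 h1'
    · rw [red_mul]; exact mul_ne_zero h2 h2'
    · rw [Finsupp.add_apply, hP, hP', gen_mul, gen_mul,
        P.ord_mul (gen_ne_zero_of_red_ne_zero h1) (gen_ne_zero_of_red_ne_zero h1'),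
        P.ord_mul (gen_ne_zero_of_red_ne_zero h2) (gen_ne_zero_of_red_ne_zero h2')]
      ring
    · rw [Finsupp.mapDomain_add, Finsupp.add_apply, hQ, hQ', red_mul, red_mul,
        Q.ord_mul h1 h1', Q.ord_mul h2 h2']
      ring
  | neg E _ hE =>
    obtain ⟨Y₁, Y₂, h1, h2, hP, hQ⟩ := hE
    refine ⟨Y₂, Y₁, h2, h1, fun P => ?_, fun Q => ?_⟩
    · rw [Finsupp.neg_apply, hP]
      ring
    · rw [← Finsupp.mapDomain.addMonoidHom_apply, map_neg, Finsupp.mapDomain.addMonoidHom_apply,
        Finsupp.neg_apply, hQ]
      ring

/-- **RED**: the formal core of S18. Given reduction inputs, Theorem T for the exponent `m` and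
the constancy statement on the reduced function field, a class killed by `m` whose reduction
vanishes is zero. -/
theorem eq_zero_of_TStatement (hπ : Function.Surjective π) (h : ReductionInputsAlong A π N)
    {m : ℕ} (hm : m ≠ 0) (hT : TStatementAlong A π N m) (hC : ConstStatement k N)
    (z : Pic0 L (laurentBaseChange L (modularFunctionFieldFull N)))
    (hmz : m • z = 0) (hz : reductionAlong A π N z = 0) : z = 0 := by
  obtain ⟨D, rfl⟩ := Pic0.mk_surjective z
  have hr : IsPlaceReductionAlong A π N h.choose := h.choose_spec.1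
  have hgen : PrincipalGeneratedByIntegral A π N := h.choose_spec.2
  -- `m • D` is principal
  have h1 : m • (D : Divisor L (laurentBaseChange L (modularFunctionFieldFull N))) ∈
      Divisor.principal (K := L) (F := laurentBaseChange L (modularFunctionFieldFull N)) := by
    have h' : Pic0.mk (m • D) = 0 := by
      have h0 : Pic0.mk (m • D) = m • Pic0.mk D := QuotientAddGroup.mk_nsmul _ _ _
      rw [h0]
      exact hmz
    have h'' := (QuotientAddGroup.eq_zero_iff (m • D)).mp h'
    rw [AddSubgroup.mem_addSubgroupOf, AddSubgroupClass.coe_nsmul] at h''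
    exact h''
  -- the reduction of `D` is principal
  have h2 : Finsupp.mapDomain h.choose
      (D : Divisor L (laurentBaseChange L (modularFunctionFieldFull N))) ∈
      Divisor.principal (K := k) (F := modularFunctionFieldFullC k N) := by
    rw [reductionAlong_mk h] at hz
    have h'' := (QuotientAddGroup.eq_zero_iff _).mp hz
    rw [AddSubgroup.mem_addSubgroupOf, coe_reductionDegZeroAlong] at h''
    exact h''
  obtain ⟨φ, hφ0, hφ⟩ := h2
  obtain ⟨Y₁, Y₂, hY₁, hY₂, hYP, hYQ⟩ := exists_pair_of_mem_closure hr (hgen h1)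
  -- `ψ = Ȳ₁ / (Ȳ₂ φ^m)` has trivial divisor, hence is a constant
  have hψ0 : red Y₁ * (red Y₂ * φ ^ m)⁻¹ ≠ 0 :=
    mul_ne_zero hY₁ (inv_ne_zero (mul_ne_zero hY₂ (pow_ne_zero m hφ0)))
  have hψ : ∀ Q : Place k (modularFunctionFieldFullC k N),
      Q.ord (red Y₁ * (red Y₂ * φ ^ m)⁻¹) = 0 := by
    intro Q
    have hq := hYQ Q
    rw [Finsupp.mapDomain_smul, Finsupp.smul_apply, hφ Q, nsmul_eq_mul] at hq
    rw [Q.ord_mul hY₁ (inv_ne_zero (mul_ne_zero hY₂ (pow_ne_zero m hφ0))), Q.ord_inv,
      Q.ord_mul hY₂ (pow_ne_zero m hφ0), ord_pow_nat]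
    linarith
  obtain ⟨cbar, hc⟩ := hC _ hψ0 hψ
  have hcbar0 : cbar ≠ 0 := by
    rintro rfl
    rw [map_zero] at hc
    exact hψ0 hc
  obtain ⟨c, rfl⟩ := hπ cbar
  have hc0 : (c : L) ≠ 0 := by
    intro h0
    apply hcbar0
    have : c = 0 := Subtype.ext h0
    rw [this, map_zero]
  obtain ⟨Pφ, Qφ, hQφ, hPQ⟩ := exists_lift (A := A) (π := π) (N := N) hπ φ.2
  have hPQ' : φ * red Qφ = red Pφ := Subtype.ext hPQ
  have hPφ : red Pφ ≠ 0 := by
    rw [← hPQ']
    exact mul_ne_zero hφ0 hQφ
  -- the key identity of reductions
  have hred : red Y₁ = algebraMap k (modularFunctionFieldFullC k N) (π c) * red Y₂ * φ ^ m := by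
    rw [← hc]
    field_simp
  -- apply Theorem T to `U = Y₁ Qφ^m`, `V = c Y₂ Pφ^m`
  set U : intSubring A π N := Y₁ * Qφ ^ m with hU
  set V : intSubring A π N := constInt c * Y₂ * Pφ ^ m with hV
  have hredUV : red U = red V := by
    rw [hU, hV, red_mul, red_mul, red_mul, red_pow, red_pow, red_constInt, hred, ← hPQ']
    ring
  have hredU : red U ≠ 0 := by
    rw [hU, red_mul, red_pow]
    exact mul_ne_zero hY₁ (pow_ne_zero m hQφ)
  have hgenc : gen (constInt (π := π) (N := N) c) ≠ 0 := by
    rw [gen_constInt]
    simpa using hc0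
  have hordU : ∀ P : Place L (laurentBaseChange L (modularFunctionFieldFull N)),
      P.ord (gen U) = P.ord (gen Y₁) + m * P.ord (gen Qφ) := by
    intro P
    rw [hU, gen_mul, gen_pow,
      P.ord_mul (gen_ne_zero_of_red_ne_zero hY₁)
        (pow_ne_zero m (gen_ne_zero_of_red_ne_zero hQφ)), ord_pow_nat]
  have hordV : ∀ P : Place L (laurentBaseChange L (modularFunctionFieldFull N)),
      P.ord (gen V) = P.ord (gen Y₂) + m * P.ord (gen Pφ) := by
    intro P
    rw [hV, gen_mul, gen_mul, gen_pow,
      P.ord_mul (mul_ne_zero hgenc (gen_ne_zero_of_red_ne_zero hY₂))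
        (pow_ne_zero m (gen_ne_zero_of_red_ne_zero hPφ)),
      P.ord_mul hgenc (gen_ne_zero_of_red_ne_zero hY₂), ord_pow_nat, gen_constInt,
      ord_algebraMap_of_ne_zero P hc0, zero_add]
  have hDP : ∀ P : Place L (laurentBaseChange L (modularFunctionFieldFull N)),
      (m : ℤ) * (D : Divisor L (laurentBaseChange L (modularFunctionFieldFull N))) P =
        P.ord (gen Y₁) - P.ord (gen Y₂) := by
    intro P
    rw [← hYP P, Finsupp.smul_apply, nsmul_eq_mul]
  obtain ⟨w, hw0, hw⟩ := hT (U : LaurentSeries A) (V : LaurentSeries A) U.2.1 V.2.1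
    (congrArg Subtype.val hredUV) (fun h0 => hredU (Subtype.ext h0)) U.2.2 (fun P => by
      show (m : ℤ) ∣ P.ord (gen U) - P.ord (gen V)
      rw [hordU, hordV]
      refine ⟨(D : Divisor L (laurentBaseChange L (modularFunctionFieldFull N))) P +
        P.ord (gen Qφ) - P.ord (gen Pφ), ?_⟩
      have := hDP P
      linarith)
  -- conclude: `D = div (w * Pφ / Qφ)`
  have hprin : (D : Divisor L (laurentBaseChange L (modularFunctionFieldFull N))) ∈
      Divisor.principal (K := L) (F := laurentBaseChange L (modularFunctionFieldFull N)) := by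
    refine ⟨w * gen Pφ * (gen Qφ)⁻¹, mul_ne_zero (mul_ne_zero hw0 (gen_ne_zero_of_red_ne_zero hPφ))
      (inv_ne_zero (gen_ne_zero_of_red_ne_zero hQφ)), fun P => ?_⟩
    have hwP : P.ord (gen U) - P.ord (gen V) = m * P.ord w := hw P
    rw [hordU, hordV] at hwP
    have hDP' := hDP P
    rw [P.ord_mul (mul_ne_zero hw0 (gen_ne_zero_of_red_ne_zero hPφ))
        (inv_ne_zero (gen_ne_zero_of_red_ne_zero hQφ)),
      P.ord_mul hw0 (gen_ne_zero_of_red_ne_zero hPφ), P.ord_inv]
    have hm' : (m : ℤ) ≠ 0 := by exact_mod_cast hm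
    apply mul_left_cancel₀ hm'
    linarith
  exact (QuotientAddGroup.eq_zero_iff _).mpr (by
    rw [AddSubgroup.mem_addSubgroupOf]
    exact hprin)

end Core

section ModL

variable (N : ℕ) (A : ValuationSubring (AlgebraicClosure ℚ))

/-- Theorem T at level `N` for the valuation subring `A` of `ℚ̄` and the exponent `m`. -/
abbrev TStatement (m : ℕ) : Prop :=
  TStatementAlong A (IsLocalRing.residue A) N m

variable {N A}

/-- S18 from Theorem T for the exponent `m` itself. -/
theorem result_of_TStatement {ℓ : ℕ} (h : ReductionInputsModL A N) (m : ℕ) (hm : ¬ ℓ ∣ m)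
    (hT : TStatement N A m) (hC : ConstStatement (IsLocalRing.ResidueField A) N)
    (z : JZero N) (hmz : m • z = 0) (hz : reductionModL A N z = 0) : z = 0 :=
  eq_zero_of_TStatement IsLocalRing.residue_surjective h
    (fun h0 : m = 0 => hm (by rw [h0]; exact dvd_zero ℓ)) hT hC z hmz hz

/-- S18 from Theorem T for prime exponents `p ≠ ℓ` only. -/
theorem result_of_TStatement_prime {ℓ : ℕ} (h : ReductionInputsModL A N)
    (hT : ∀ p : ℕ, p.Prime → p ≠ ℓ → TStatement N A p)
    (hC : ConstStatement (IsLocalRing.ResidueField A) N)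
    (m : ℕ) (hm : ¬ ℓ ∣ m) (z : JZero N) (hmz : m • z = 0) (hz : reductionModL A N z = 0) :
    z = 0 := by
  induction m using Nat.strong_induction_on generalizing z with
  | _ m ih =>
    rcases Nat.lt_or_ge m 2 with hlt | hge
    · interval_cases m
      · exact absurd (dvd_zero ℓ) hm
      · simpa using hmz
    · have hp : (m.minFac).Prime := Nat.minFac_prime (by omega)
      obtain ⟨m', hm'⟩ := Nat.minFac_dvd m
      have hpℓ : m.minFac ≠ ℓ := fun h0 => hm (h0 ▸ Nat.minFac_dvd m)
      have hm'0 : m' ≠ 0 := by
        rintro rfl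
        omega
      have hlt : m' < m := by
        have h2 := hp.two_le
        calc m' < m.minFac * m' := by nlinarith [Nat.pos_of_ne_zero hm'0]
          _ = m := hm'.symm
      have hz' : m' • z = 0 := by
        refine eq_zero_of_TStatement IsLocalRing.residue_surjective h hp.ne_zero
          (hT _ hp hpℓ) hC (m' • z) ?_ ?_
        · rw [← mul_smul, ← hm']
          exact hmz
        · rw [map_nsmul, hz, smul_zero]
      exact ih m' hlt (fun hd => hm (hm' ▸ Dvd.dvd.mul_left hd _)) z hz' hz

end ModL

end

end Fermat.Agent.S18.H73
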