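/-
S18, package RED (helper73), part 2: glue between `TStatement` (pointwise form consumed by
`result_of_TStatement_prime`) and Theorem T in the "one-unit" form of the Program J skeleton
(`u ≡ 1`, all orders divisible by `m` ⟹ `u = c * w ^ m`), stated here fully unfolded so that the
skeleton's `TheoremT A N p` can be passed verbatim.
-/
import Fermat.Agent.S18.H73.Red

set_option autoImplicit false

open HahnSeries IntermediateField AlgebraicCurve ModularCurve

namespace Fermat.Agent.S18.H73

noncomputable section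

/-- Theorem T in "one-unit" form (unfolded) implies the pointwise `TStatement`. -/
theorem TStatement_of_oneUnit (N : ℕ) (A : ValuationSubring (AlgebraicClosure ℚ)) (m : ℕ)
    (hT : ∀ u : ↥(modularFunctionFieldBar N),
      (∃ y₁ y₂ : LaurentSeries A,
        coeffMap (IsLocalRing.residue A) y₁ = coeffMap (IsLocalRing.residue A) y₂ ∧
        coeffMap (IsLocalRing.residue A) y₂ ≠ 0 ∧
        coeffMap A.subtype y₁ ∈ modularFunctionFieldBar N ∧
        (u : LaurentSeries (AlgebraicClosure ℚ)) * coeffMap A.subtype y₂ =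
          coeffMap A.subtype y₁) →
      (∀ P : Place (AlgebraicClosure ℚ) ↥(modularFunctionFieldBar N), (m : ℤ) ∣ P.ord u) →
      ∃ (c : AlgebraicClosure ℚ) (w : ↥(modularFunctionFieldBar N)), c ≠ 0 ∧
        u = algebraMap (AlgebraicClosure ℚ) ↥(modularFunctionFieldBar N) c * w ^ m) :
    TStatement N A m := by
  intro U V hU hV hUV hU0 _ hdiv
  have hV0 : coeffMap (IsLocalRing.residue A) V ≠ 0 := hUV ▸ hU0
  have hUne : (⟨coeffMap A.subtype U, hU⟩ : ↥(modularFunctionFieldBar N)) ≠ 0 := by
    intro h0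
    apply hU0
    have h1 : coeffMap A.subtype U = 0 := congrArg Subtype.val h0
    have h2 : U = 0 := coeffMap_subtype_injective (by rw [h1, map_zero])
    rw [h2, map_zero]
  have hVne : (⟨coeffMap A.subtype V, hV⟩ : ↥(modularFunctionFieldBar N)) ≠ 0 := by
    intro h0
    apply hV0
    have h1 : coeffMap A.subtype V = 0 := congrArg Subtype.val h0
    have h2 : V = 0 := coeffMap_subtype_injective (by rw [h1, map_zero])
    rw [h2, map_zero]
  have hVne' : coeffMap A.subtype V ≠ 0 := fun h0 => hVne (Subtype.ext h0)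
  set u : ↥(modularFunctionFieldBar N) :=
    (⟨coeffMap A.subtype U, hU⟩ : ↥(modularFunctionFieldBar N)) *
      (⟨coeffMap A.subtype V, hV⟩ : ↥(modularFunctionFieldBar N))⁻¹ with hu
  have hune : u ≠ 0 := mul_ne_zero hUne (inv_ne_zero hVne)
  have hord : ∀ P : Place (AlgebraicClosure ℚ) ↥(modularFunctionFieldBar N),
      P.ord u = P.ord (⟨coeffMap A.subtype U, hU⟩ : ↥(modularFunctionFieldBar N)) -
        P.ord (⟨coeffMap A.subtype V, hV⟩ : ↥(modularFunctionFieldBar N)) := by
    intro P
    rw [hu, P.ord_mul hUne (inv_ne_zero hVne), P.ord_inv]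
    ring
  obtain ⟨c, w, hc, huw⟩ := hT u
    ⟨U, V, hUV, hV0, hU, by
      show (coeffMap A.subtype U * (coeffMap A.subtype V)⁻¹) * coeffMap A.subtype V =
        coeffMap A.subtype U
      rw [mul_assoc, inv_mul_cancel₀ hVne', mul_one]⟩
    (fun P => by rw [hord P]; exact hdiv P)
  have hcne : algebraMap (AlgebraicClosure ℚ) ↥(modularFunctionFieldBar N) c ≠ 0 := by
    simpa using hc
  by_cases hw : w = 0
  · -- then `m = 0` and `u` is a constant
    have hm0 : m = 0 := by
      by_contra hm0
      apply hune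
      rw [huw, hw, zero_pow hm0, mul_zero]
    refine ⟨1, one_ne_zero, fun P => ?_⟩
    rw [← hord P, huw, hm0, pow_zero, mul_one, ord_algebraMap_of_ne_zero P hc]
    simp
  · refine ⟨w, hw, fun P => ?_⟩
    rw [← hord P, huw, P.ord_mul hcne (pow_ne_zero m hw), ord_algebraMap_of_ne_zero P hc,
      ord_pow_nat, zero_add]

/-- **stepI** of the Program J skeleton: S18 from Theorem T (one-unit form, prime exponents
`p ≠ ℓ`) and the constancy statement on the reduced function field. -/
theorem stepI_of (N : ℕ) {ℓ : ℕ} (A : ValuationSubring (AlgebraicClosure ℚ))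
    (h : ModularCurve.ReductionInputsModL A N)
    (hT : ∀ p : ℕ, p.Prime → p ≠ ℓ → ∀ u : ↥(modularFunctionFieldBar N),
      (∃ y₁ y₂ : LaurentSeries A,
        coeffMap (IsLocalRing.residue A) y₁ = coeffMap (IsLocalRing.residue A) y₂ ∧
        coeffMap (IsLocalRing.residue A) y₂ ≠ 0 ∧
        coeffMap A.subtype y₁ ∈ modularFunctionFieldBar N ∧
        (u : LaurentSeries (AlgebraicClosure ℚ)) * coeffMap A.subtype y₂ =
          coeffMap A.subtype y₁) →
      (∀ P : Place (AlgebraicClosure ℚ) ↥(modularFunctionFieldBar N), (p : ℤ) ∣ P.ord u) →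
      ∃ (c : AlgebraicClosure ℚ) (w : ↥(modularFunctionFieldBar N)), c ≠ 0 ∧
        u = algebraMap (AlgebraicClosure ℚ) ↥(modularFunctionFieldBar N) c * w ^ p)
    (hC : ConstStatement (IsLocalRing.ResidueField A) N)
    (m : ℕ) (hm : ¬ ℓ ∣ m) (z : ModularCurve.JZero N)
    (hmz : m • z = 0) (hz : ModularCurve.reductionModL A N z = 0) : z = 0 :=
  result_of_TStatement_prime h
    (fun p hp hpℓ => TStatement_of_oneUnit N A p (hT p hp hpℓ)) hC m hm z hmz hz

end

end Fermat.Agent.S18.H73
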