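/-
S18 (helper73): a valuation subring of a field `F` which is "of bounded degree" over a subfield on
which the valuation is generated by one element `t` of valuation `< 1` is a principal ideal ring
(hence a discrete valuation ring).  Mathlib only; no separability, no integral closures.
-/
import Mathlib

set_option autoImplicit false

namespace Fermat.Agent.S18.H73

section Valuation

variable {F : Type*} [Field F] {Γ₀ : Type*} [LinearOrderedCommGroupWithZero Γ₀]
  (v : Valuation F Γ₀)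

/-- In a vanishing finite sum no term strictly dominates all the others. -/
theorem exists_ne_le_of_sum_eq_zero {ι : Type*} [DecidableEq ι] {s : Finset ι} {f : ι → F}
    (hsum : ∑ i ∈ s, f i = 0) {j : ι} (hj : j ∈ s) (hfj : v (f j) ≠ 0) :
    ∃ i ∈ s, i ≠ j ∧ v (f j) ≤ v (f i) := by
  by_contra h
  push Not at h
  have h1 := v.map_sum_eq_of_lt hj (fun i hi => by
    rw [Finset.mem_sdiff, Finset.mem_singleton] at hi
    exact h i hi.1 hi.2)
  rw [hsum, map_zero] at h1
  exact hfj h1.symm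

/-- In a vanishing finite sum with a nonzero term, two different terms have the same nonzero
valuation. -/
theorem exists_pair_eq_of_sum_eq_zero {ι : Type*} [DecidableEq ι] {s : Finset ι} {f : ι → F}
    (hsum : ∑ i ∈ s, f i = 0) {j : ι} (hj : j ∈ s) (hfj : v (f j) ≠ 0) :
    ∃ i ∈ s, ∃ i' ∈ s, i ≠ i' ∧ v (f i) = v (f i') ∧ v (f i) ≠ 0 := by
  obtain ⟨j₀, hj₀, hmax⟩ := Finset.exists_max_image s (fun i => v (f i)) ⟨j, hj⟩
  have hj₀0 : v (f j₀) ≠ 0 := by
    intro h0
    have := hmax j hj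
    rw [h0] at this
    exact hfj (le_antisymm this zero_le)
  obtain ⟨i, hi, hne, hle⟩ := exists_ne_le_of_sum_eq_zero v hsum hj₀ hj₀0
  exact ⟨j₀, hj₀, i, hi, hne.symm, le_antisymm hle (hmax i hi), hj₀0⟩

end Valuation

section PID

variable {F K₀ : Type*} [Field F] [Field K₀]

/-- If every nonzero element of the subfield `φ(K₀)` has valuation a power of `v t`, and every
element of `F` satisfies a nontrivial polynomial relation of degree `≤ n` over `φ(K₀)`, then for
every nonzero `x` some power `x ^ e`, `1 ≤ e ≤ n`, has valuation a power of `v t`. -/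
theorem exists_pow_eq_zpow (φ : K₀ →+* F) (V : ValuationSubring F) (t : F)
    (ht0 : t ≠ 0)
    (hval : ∀ c : K₀, c ≠ 0 → ∃ a : ℤ, V.valuation (φ c) = V.valuation t ^ a)
    (n : ℕ) (hn : ∀ x : F, ∃ c : Fin (n + 1) → K₀, c ≠ 0 ∧ ∑ i, φ (c i) * x ^ (i : ℕ) = 0)
    (x : F) (hx : x ≠ 0) :
    ∃ e : ℕ, 1 ≤ e ∧ e ≤ n ∧ ∃ a : ℤ, V.valuation x ^ e = V.valuation t ^ a := by
  classical
  obtain ⟨c, hc, hsum⟩ := hn x
  obtain ⟨j, hj⟩ : ∃ j, c j ≠ 0 := by
    by_contra h
    push Not at h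
    exact hc (funext h)
  have hvx : V.valuation x ≠ 0 := (Valuation.ne_zero_iff _).mpr hx
  have hvt : V.valuation t ≠ 0 := (Valuation.ne_zero_iff _).mpr ht0
  have hfj : V.valuation (φ (c j) * x ^ (j : ℕ)) ≠ 0 := by
    rw [Valuation.ne_zero_iff]
    exact mul_ne_zero ((map_ne_zero φ).mpr hj) (pow_ne_zero _ hx)
  obtain ⟨i, -, i', -, hne, heq, hne0⟩ :=
    exists_pair_eq_of_sum_eq_zero V.valuation hsum (Finset.mem_univ j) hfj
  -- both coefficients are nonzero
  have hci : c i ≠ 0 := by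
    rintro h0
    apply hne0
    rw [h0, map_zero, zero_mul, map_zero]
  have hci' : c i' ≠ 0 := by
    rintro h0
    apply hne0
    rw [heq, h0, map_zero, zero_mul, map_zero]
  obtain ⟨a, ha⟩ := hval (c i) hci
  obtain ⟨a', ha'⟩ := hval (c i') hci'
  rw [map_mul, map_mul, map_pow, map_pow, ha, ha'] at heq
  -- key computation, symmetric in `(i, i')`
  have key : ∀ (p q : ℕ) (b b' : ℤ), p < q →
      V.valuation t ^ b * V.valuation x ^ p = V.valuation t ^ b' * V.valuation x ^ q →
      V.valuation x ^ (q - p) = V.valuation t ^ (b - b') := by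
    intro p q b b' hpq h
    have hq : q = (q - p) + p := by omega
    rw [hq, pow_add, ← mul_assoc] at h
    have h2 := mul_right_cancel₀ (pow_ne_zero p hvx) h
    rw [zpow_sub₀ hvt, h2, mul_div_assoc, mul_comm, div_mul_cancel₀]
    exact zpow_ne_zero _ hvt
  have hlt : (i : ℕ) ≠ (i' : ℕ) := fun h => hne (Fin.ext h)
  rcases lt_or_gt_of_ne hlt with h | h
  · exact ⟨(i' : ℕ) - (i : ℕ), by omega, by have := i'.isLt; omega, a - a',
      key _ _ _ _ h heq⟩
  · exact ⟨(i : ℕ) - (i' : ℕ), by omega, by have := i.isLt; omega, a' - a,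
      key _ _ _ _ h heq.symm⟩

/-- **Discreteness.** Let `V` be a valuation subring of `F`, `t ∈ V` a nonzero non-unit, and
`φ : K₀ →+* F` a subfield such that every nonzero element of `φ(K₀)` has valuation a power of
`v t` and such that `F` has bounded degree `≤ n` over `φ(K₀)`.  Then `V` is a principal ideal
ring. -/
theorem isPrincipalIdealRing_of_boundedDegree (φ : K₀ →+* F) (V : ValuationSubring F) (t : F)
    (ht0 : t ≠ 0) (htV : t ∈ V.nonunits)
    (hval : ∀ c : K₀, c ≠ 0 → ∃ a : ℤ, V.valuation (φ c) = V.valuation t ^ a)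
    (n : ℕ) (hn : ∀ x : F, ∃ c : Fin (n + 1) → K₀, c ≠ 0 ∧ ∑ i, φ (c i) * x ^ (i : ℕ) = 0) :
    IsPrincipalIdealRing V := by
  classical
  have hvt : V.valuation t ≠ 0 := (Valuation.ne_zero_iff _).mpr ht0
  have hvt1 : V.valuation t < 1 := htV
  set M : ℕ := n.factorial with hM
  have hM0 : M ≠ 0 := Nat.factorial_ne_zero n
  -- every nonzero element has `v x ^ M` an integral power of `v t`
  have h4 : ∀ x : F, x ≠ 0 → ∃ a : ℤ, V.valuation x ^ M = V.valuation t ^ a := by
    intro x hx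
    obtain ⟨e, he1, hen, a, ha⟩ := exists_pow_eq_zpow φ V t ht0 hval n hn x hx
    obtain ⟨q, hq⟩ : e ∣ M := Nat.dvd_factorial (by omega) hen
    refine ⟨a * q, ?_⟩
    rw [hq, pow_mul, ha, zpow_mul, zpow_natCast]
  -- for elements of `V` the exponent is a natural number
  have h5 : ∀ x : F, x ≠ 0 → x ∈ V → ∃ m : ℕ, V.valuation x ^ M = V.valuation t ^ m := by
    intro x hx hxV
    obtain ⟨a, ha⟩ := h4 x hx
    have hle : V.valuation x ^ M ≤ 1 := pow_le_one₀ zero_le ((V.valuation_le_one_iff x).mpr hxV)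
    rcases le_or_gt 0 a with h0 | h0
    · refine ⟨a.toNat, ?_⟩
      rw [ha, ← zpow_natCast, Int.toNat_of_nonneg h0]
    · exfalso
      rw [ha] at hle
      have h1 : V.valuation t ^ (-a).toNat < 1 :=
        pow_lt_one₀ zero_le hvt1 (by omega)
      have h2 : V.valuation t ^ a = (V.valuation t ^ (-a).toNat)⁻¹ := by
        rw [← zpow_natCast, Int.toNat_of_nonneg (by omega), zpow_neg, inv_inv]
      rw [h2] at hle
      have h3 : (1 : V.ValueGroup) < (V.valuation t ^ (-a).toNat)⁻¹ :=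
        (one_lt_inv₀ (zero_lt_iff.mpr (pow_ne_zero _ hvt))).mpr h1
      exact absurd hle (not_le.mpr h3)
  refine ⟨fun I => ?_⟩
  by_cases hI : I = ⊥
  · rw [hI]
    exact bot_isPrincipal
  obtain ⟨x₁, hx₁I, hx₁0⟩ : ∃ x ∈ I, x ≠ 0 := by
    by_contra h
    push Not at h
    exact hI ((Submodule.eq_bot_iff I).mpr h)
  have hex : ∃ m : ℕ, ∃ y ∈ I, y ≠ 0 ∧ V.valuation (y : F) ^ M = V.valuation t ^ m := by
    obtain ⟨m, hm⟩ := h5 (x₁ : F) (by simpa using hx₁0) x₁.2
    exact ⟨m, x₁, hx₁I, hx₁0, hm⟩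
  obtain ⟨y₀, hy₀I, hy₀0, hy₀⟩ := Nat.find_spec hex
  have hy₀F : (y₀ : F) ≠ 0 := by simpa using hy₀0
  refine ⟨⟨y₀, le_antisymm (fun z hz => ?_) ?_⟩⟩
  · rw [Submodule.mem_span_singleton]
    by_cases hz0 : z = 0
    · exact ⟨0, by rw [hz0, zero_smul]⟩
    have hzF : (z : F) ≠ 0 := by simpa using hz0
    obtain ⟨m, hm⟩ := h5 (z : F) hzF z.2
    have hmin : Nat.find hex ≤ m := Nat.find_min' hex ⟨z, hz, hz0, hm⟩
    have hpow : V.valuation (z : F) ^ M ≤ V.valuation (y₀ : F) ^ M := by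
      rw [hm, hy₀]
      exact pow_le_pow_of_le_one zero_le hvt1.le hmin
    have hle : V.valuation (z : F) ≤ V.valuation (y₀ : F) := by
      by_contra hlt
      push Not at hlt
      exact absurd hpow (not_le.mpr (pow_lt_pow_left₀ hlt zero_le hM0))
    have hquot : (z : F) / (y₀ : F) ∈ V := by
      rw [← V.valuation_le_one_iff, map_div₀]
      exact div_le_one_of_le₀ hle zero_le
    refine ⟨⟨(z : F) / (y₀ : F), hquot⟩, Subtype.ext ?_⟩
    show (z : F) / (y₀ : F) * (y₀ : F) = (z : F)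
    exact div_mul_cancel₀ _ hy₀F
  · rw [Submodule.span_singleton_le_iff_mem]
    exact hy₀I

end PID

end Fermat.Agent.S18.H73
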