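/-
S18 (helper73): places of a function field of one variable over an algebraically closed field,
without separability and without integral closures.

Let `F / k` be a field extension, `k` algebraically closed, `t₀ ∈ F` such that `F` has bounded
degree over `k(t₀)`.  Then
* every valuation subring `V ≠ ⊤` of `F` containing `k` is a principal ideal ring, i.e. it is a
  `Place k F` in the sense of the Prelude (`isPrincipalIdealRing_of_ne_top`);
* an element of `F` whose order is `0` at every place is a constant
  (`exists_eq_algebraMap_of_forall_ord_eq_zero`).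
-/
import Mathlib
import Fermat.Prelude.Def_AlgebraicCurve_DivisorClassGroup
import Fermat.Agent.S18.H73.DiscreteVal

set_option autoImplicit false

open IntermediateField AlgebraicCurve Polynomial

namespace Fermat.Agent.S18.H73

section

variable {k F : Type*} [Field k] [Field F] [Algebra k F]

/-- `F` has degree at most `n` over the intermediate field `K₀`: every element satisfies a
nontrivial polynomial relation of degree `≤ n` with coefficients in `K₀`. -/
def BoundedDegree (K₀ : IntermediateField k F) (n : ℕ) : Prop :=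
  ∀ x : F, ∃ c : Fin (n + 1) → ↥K₀, c ≠ 0 ∧ ∑ i, (c i : F) * x ^ (i : ℕ) = 0

theorem valuation_algebraMap_eq_one (V : ValuationSubring F)
    (hk : ∀ a : k, algebraMap k F a ∈ V) {a : k} (ha : a ≠ 0) :
    V.valuation (algebraMap k F a) = 1 := by
  have h1 : V.valuation (algebraMap k F a) ≤ 1 := (V.valuation_le_one_iff _).mpr (hk a)
  have h2 : V.valuation (algebraMap k F a⁻¹) ≤ 1 := (V.valuation_le_one_iff _).mpr (hk a⁻¹)
  rw [map_inv₀, map_inv₀] at h2
  have h0 : V.valuation (algebraMap k F a) ≠ 0 :=
    (Valuation.ne_zero_iff _).mpr (by simpa using ha)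
  have h3 : 1 ≤ V.valuation (algebraMap k F a) := (inv_le_one₀ (zero_lt_iff.mpr h0)).mp h2
  exact le_antisymm h1 h3

theorem aeval_mem_of_mem (V : ValuationSubring F) (hk : ∀ a : k, algebraMap k F a ∈ V)
    {t : F} (ht : t ∈ V) (q : k[X]) : aeval t q ∈ V := by
  rw [aeval_eq_sum_range]
  refine sum_mem fun i _ => ?_
  rw [Algebra.smul_def]
  exact mul_mem (hk _) (pow_mem ht i)

/-- The valuation of a nonzero polynomial in a non-unit `t` is a power of the valuation of `t`. -/
theorem valuation_aeval_eq_pow (V : ValuationSubring F) (hk : ∀ a : k, algebraMap k F a ∈ V)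
    {t : F} (htV : t ∈ V.nonunits) (p : k[X]) (hp : p ≠ 0) :
    ∃ m : ℕ, V.valuation (aeval t p) = V.valuation t ^ m := by
  have htmem : t ∈ V := V.nonunits_subset htV
  induction h : p.natDegree using Nat.strong_induction_on generalizing p with
  | _ d ih =>
    by_cases h0 : p.coeff 0 = 0
    · have hpX : p = p.divX * X := by
        conv_lhs => rw [← divX_mul_X_add p, h0, map_zero, add_zero]
      have hdiv0 : p.divX ≠ 0 := by
        intro h'
        rw [h', zero_mul] at hpX
        exact hp hpX
      have hdeg : p.divX.natDegree < d := by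
        have h1 : 1 ≤ p.natDegree := by
          rw [hpX, natDegree_mul hdiv0 X_ne_zero, natDegree_X]
          omega
        rw [natDegree_divX_eq_natDegree_tsub_one, h]
        omega
      obtain ⟨m, hm⟩ := ih _ hdeg p.divX hdiv0 rfl
      refine ⟨m + 1, ?_⟩
      conv_lhs => rw [hpX]
      rw [map_mul, aeval_X, map_mul, hm, pow_succ]
    · refine ⟨0, ?_⟩
      have hp' : aeval t p = algebraMap k F (p.coeff 0) + t * aeval t p.divX := by
        conv_lhs => rw [← divX_mul_X_add p]
        rw [map_add, map_mul, aeval_X, aeval_C]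
        ring
      have h1 := valuation_algebraMap_eq_one V hk h0
      have h2 : V.valuation (t * aeval t p.divX) < V.valuation (algebraMap k F (p.coeff 0)) := by
        rw [h1, map_mul]
        calc V.valuation t * V.valuation (aeval t p.divX) ≤ V.valuation t * 1 :=
              mul_le_mul' le_rfl ((V.valuation_le_one_iff _).mpr (aeval_mem_of_mem V hk htmem _))
          _ < 1 := by rw [mul_one]; exact htV
      rw [hp', pow_zero, Valuation.map_add_eq_of_lt_left _ h2, h1]

/-- The valuation of a nonzero element of `k(t)`, `t` a nonzero non-unit, is an integral power of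
the valuation of `t`. -/
theorem valuation_eq_zpow_of_mem_adjoin (V : ValuationSubring F)
    (hk : ∀ a : k, algebraMap k F a ∈ V) {t : F} (ht0 : t ≠ 0) (htV : t ∈ V.nonunits)
    (c : ↥(k⟮t⟯)) (hc : c ≠ 0) : ∃ a : ℤ, V.valuation (c : F) = V.valuation t ^ a := by
  obtain ⟨r, s, hrs⟩ := (mem_adjoin_simple_iff k (c : F)).mp c.2
  have hcF : (c : F) ≠ 0 := fun h => hc (Subtype.ext h)
  have hr : aeval t r ≠ 0 := by
    intro h
    apply hcF
    rw [hrs, h, zero_div]
  have hs : aeval t s ≠ 0 := by
    intro h
    apply hcF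
    rw [hrs, h, div_zero]
  have hr0 : r ≠ 0 := by
    rintro rfl
    exact hr (map_zero _)
  have hs0 : s ≠ 0 := by
    rintro rfl
    exact hs (map_zero _)
  obtain ⟨m, hm⟩ := valuation_aeval_eq_pow V hk htV r hr0
  obtain ⟨m', hm'⟩ := valuation_aeval_eq_pow V hk htV s hs0
  refine ⟨(m : ℤ) - m', ?_⟩
  rw [hrs, map_div₀, hm, hm', zpow_sub₀ ((Valuation.ne_zero_iff _).mpr ht0), zpow_natCast,
    zpow_natCast]

/-- A valuation subring containing `k` in which `t ≠ 0` is a non-unit is a principal ideal ring
as soon as `F` has bounded degree over `k(t)`. -/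
theorem isPrincipalIdealRing_of_adjoin_simple (V : ValuationSubring F)
    (hk : ∀ a : k, algebraMap k F a ∈ V) {t : F} (ht0 : t ≠ 0) (htV : t ∈ V.nonunits)
    (n : ℕ) (hn : BoundedDegree k⟮t⟯ n) : IsPrincipalIdealRing V :=
  isPrincipalIdealRing_of_boundedDegree (algebraMap ↥(k⟮t⟯) F) V t ht0 htV
    (fun c hc => valuation_eq_zpow_of_mem_adjoin V hk ht0 htV c hc) n hn

/-- If all nonzero elements of `K₀` are units of `V` and `F` has bounded degree over `K₀`, then
`V = ⊤`. -/
theorem eq_top_of_valuation_eq_one (V : ValuationSubring F) (K₀ : IntermediateField k F)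
    (n : ℕ) (hn : BoundedDegree K₀ n)
    (h1 : ∀ c : ↥K₀, c ≠ 0 → V.valuation (c : F) = 1) : V = ⊤ := by
  classical
  rw [eq_top_iff]
  intro y _
  by_contra hy
  have hvy : 1 < V.valuation y := by
    rw [← not_le, V.valuation_le_one_iff]
    exact hy
  have hy0 : y ≠ 0 := by
    rintro rfl
    exact hy V.zero_mem
  obtain ⟨c, hc, hsum⟩ := hn y
  obtain ⟨j, hj⟩ : ∃ j, c j ≠ 0 := by
    by_contra h
    push Not at h
    exact hc (funext h)
  have hfj : V.valuation ((c j : F) * y ^ (j : ℕ)) ≠ 0 := by
    rw [Valuation.ne_zero_iff]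
    exact mul_ne_zero (fun h => hj (Subtype.ext h)) (pow_ne_zero _ hy0)
  obtain ⟨i, -, i', -, hne, heq, hne0⟩ :=
    exists_pair_eq_of_sum_eq_zero V.valuation hsum (Finset.mem_univ j) hfj
  have hci : c i ≠ 0 := by
    rintro h0
    apply hne0
    rw [h0]
    simp
  have hci' : c i' ≠ 0 := by
    rintro h0
    apply hne0
    rw [heq, h0]
    simp
  rw [map_mul, map_mul, h1 _ hci, h1 _ hci', one_mul, one_mul, map_pow, map_pow] at heq
  have hinj : (i : ℕ) = (i' : ℕ) := by
    rcases lt_trichotomy (i : ℕ) (i' : ℕ) with h | h | h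
    · exact absurd heq (ne_of_lt (pow_lt_pow_right₀ hvy h))
    · exact h
    · exact absurd heq.symm (ne_of_lt (pow_lt_pow_right₀ hvy h))
  exact hne (Fin.ext hinj)

theorem adjoin_sub_algebraMap (t₀ : F) (a : k) : k⟮t₀ - algebraMap k F a⟯ = k⟮t₀⟯ := by
  apply le_antisymm
  · rw [adjoin_simple_le_iff]
    exact sub_mem (mem_adjoin_simple_self k t₀) (IntermediateField.algebraMap_mem _ a)
  · rw [adjoin_simple_le_iff]
    have h : (t₀ - algebraMap k F a) + algebraMap k F a ∈ k⟮t₀ - algebraMap k F a⟯ :=
      add_mem (mem_adjoin_simple_self k _) (IntermediateField.algebraMap_mem _ a)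
    rwa [sub_add_cancel] at h

theorem adjoin_inv (t₀ : F) : k⟮t₀⁻¹⟯ = k⟮t₀⟯ := by
  apply le_antisymm
  · rw [adjoin_simple_le_iff]
    exact inv_mem (mem_adjoin_simple_self k t₀)
  · rw [adjoin_simple_le_iff]
    have h : (t₀⁻¹)⁻¹ ∈ k⟮t₀⁻¹⟯ := inv_mem (mem_adjoin_simple_self k _)
    rwa [inv_inv] at h

variable [IsAlgClosed k]

/-- If `t₀ ∈ V` and all nonzero `t₀ - a` are units of `V`, then all nonzero polynomial values at
`t₀` are units of `V` (`k` algebraically closed). -/
theorem valuation_aeval_eq_one (V : ValuationSubring F) (hk : ∀ a : k, algebraMap k F a ∈ V)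
    {t₀ : F}
    (hB : ∀ a : k, t₀ - algebraMap k F a ≠ 0 → V.valuation (t₀ - algebraMap k F a) = 1)
    (p : k[X]) (hp : aeval t₀ p ≠ 0) : V.valuation (aeval t₀ p) = 1 := by
  induction h : p.natDegree using Nat.strong_induction_on generalizing p with
  | _ d ih =>
    by_cases hd : p.natDegree = 0
    · obtain ⟨a, rfl⟩ := natDegree_eq_zero.mp hd
      rw [aeval_C] at hp ⊢
      exact valuation_algebraMap_eq_one V hk (fun h0 => hp (by rw [h0, map_zero]))
    · have hp0 : p ≠ 0 := by
        rintro rfl
        exact hp (map_zero _)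
      have hdeg : p.degree ≠ 0 := by
        intro h0
        exact hd (natDegree_eq_zero_iff_degree_le_zero.mpr h0.le)
      obtain ⟨a, ha⟩ := IsAlgClosed.exists_root p hdeg
      obtain ⟨q, hq⟩ := dvd_iff_isRoot.mpr ha
      have hq0 : q ≠ 0 := by
        rintro rfl
        rw [mul_zero] at hq
        exact hp0 hq
      have hev : aeval t₀ p = (t₀ - algebraMap k F a) * aeval t₀ q := by
        rw [hq, map_mul, map_sub, aeval_X, aeval_C]
      rw [hev] at hp ⊢
      have hqd : q.natDegree < d := by
        rw [← h, hq, natDegree_mul (X_sub_C_ne_zero a) hq0, natDegree_X_sub_C]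
        omega
      rw [map_mul, hB a (left_ne_zero_of_mul hp), one_mul]
      exact ih _ hqd q (right_ne_zero_of_mul hp) rfl

/-- **Every nontrivial valuation subring over `k` is discrete.** -/
theorem isPrincipalIdealRing_of_ne_top (t₀ : F) (n : ℕ) (hn : BoundedDegree k⟮t₀⟯ n)
    (V : ValuationSubring F) (hk : ∀ a : k, algebraMap k F a ∈ V) (hV : V ≠ ⊤) :
    IsPrincipalIdealRing V := by
  by_cases ht₀ : t₀ ∈ V
  · by_cases hB : ∃ a : k, t₀ - algebraMap k F a ≠ 0 ∧ t₀ - algebraMap k F a ∈ V.nonunits
    · obtain ⟨a, ha0, haV⟩ := hB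
      refine isPrincipalIdealRing_of_adjoin_simple V hk ha0 haV n ?_
      rw [adjoin_sub_algebraMap]
      exact hn
    · exfalso
      apply hV
      push Not at hB
      have hB' : ∀ a : k, t₀ - algebraMap k F a ≠ 0 →
          V.valuation (t₀ - algebraMap k F a) = 1 := by
        intro a ha
        have hmem : t₀ - algebraMap k F a ∈ V := V.sub_mem ht₀ (hk a)
        have hnot : ¬ V.valuation (t₀ - algebraMap k F a) < 1 := hB a ha
        exact le_antisymm ((V.valuation_le_one_iff _).mpr hmem) (not_lt.mp hnot)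
      refine eq_top_of_valuation_eq_one V k⟮t₀⟯ n hn (fun c hc => ?_)
      obtain ⟨r, s, hrs⟩ := (mem_adjoin_simple_iff k (c : F)).mp c.2
      have hcF : (c : F) ≠ 0 := fun h => hc (Subtype.ext h)
      have hr : aeval t₀ r ≠ 0 := by
        intro h
        apply hcF
        rw [hrs, h, zero_div]
      have hs : aeval t₀ s ≠ 0 := by
        intro h
        apply hcF
        rw [hrs, h, div_zero]
      rw [hrs, map_div₀, valuation_aeval_eq_one V hk hB' r hr,
        valuation_aeval_eq_one V hk hB' s hs, div_one]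
  · have ht₀0 : t₀ ≠ 0 := by
      rintro rfl
      exact ht₀ V.zero_mem
    have hinv : t₀⁻¹ ∈ V.nonunits := V.inv_mem_nonunits_iff.mpr (Or.inr ht₀)
    refine isPrincipalIdealRing_of_adjoin_simple V hk (inv_ne_zero ht₀0) hinv n ?_
    rw [adjoin_inv]
    exact hn

/-- The image of an algebraically closed field is integrally closed in any field extension. -/
theorem isIntegrallyClosedIn_range : IsIntegrallyClosedIn (algebraMap k F).range F := by
  rw [Subring.isIntegrallyClosedIn_iff]
  intro x hx
  obtain ⟨P, hPmonic, hPx⟩ := hx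
  -- lift `P` to a monic polynomial over `k`
  have hsurj : Function.Surjective (algebraMap k F).rangeRestrict :=
    (algebraMap k F).rangeRestrict_surjective
  have hlift : P ∈ Polynomial.lifts (algebraMap k F).rangeRestrict :=
    (Polynomial.mem_lifts P).mpr (Polynomial.map_surjective _ hsurj P)
  obtain ⟨p, hpP, -, hpmonic⟩ := Polynomial.lifts_and_degree_eq_and_monic hlift hPmonic
  have hxk : IsIntegral k x := by
    refine ⟨p, hpmonic, ?_⟩
    have h1 : eval₂ (algebraMap k F) x p =
        eval₂ (algebraMap (algebraMap k F).range F) x (p.map (algebraMap k F).rangeRestrict) := by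
      rw [eval₂_map]
      rfl
    rw [h1, hpP]
    exact hPx
  exact minpoly.mem_range_of_degree_eq_one k x
    (IsAlgClosed.degree_eq_one_of_irreducible k (minpoly.irreducible hxk))

/-- **Constancy.** Over an algebraically closed field `k`, if `F` has bounded degree over `k(t₀)`,
then a nonzero element of `F` whose order vanishes at every place is a constant. -/
theorem exists_eq_algebraMap_of_forall_ord_eq_zero (t₀ : F) (n : ℕ)
    (hn : BoundedDegree k⟮t₀⟯ n) (f : F) (hf : f ≠ 0)
    (hord : ∀ Q : Place k F, Q.ord f = 0) : ∃ c : k, f = algebraMap k F c := by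
  by_contra hcon
  push Not at hcon
  have hfR : f ∉ (algebraMap k F).range := fun ⟨c, hc⟩ => hcon c hc.symm
  have : IsIntegrallyClosedIn (algebraMap k F).range F := isIntegrallyClosedIn_range
  obtain ⟨V, hRV, hfV⟩ := Subring.exists_le_valuationSubring_of_isIntegrallyClosedIn hfR
  have hk : ∀ a, algebraMap k F a ∈ V := fun a => hRV ⟨a, rfl⟩
  have hV : V ≠ ⊤ := by
    rintro rfl
    exact hfV (ValuationSubring.mem_top f)
  have hPIR := isPrincipalIdealRing_of_ne_top t₀ n hn V hk hV
  obtain ⟨Q, hQ⟩ : ∃ Q : Place k F, Q.toValuationSubring = V := ⟨⟨V, hk, hV, hPIR⟩, rfl⟩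
  obtain ⟨π, hπ⟩ := IsDiscreteValuationRing.exists_irreducible Q.toValuationSubring
  obtain ⟨u, hu⟩ := Q.exists_unit_mul_zpow hf hπ
  rw [hord Q, zpow_zero, mul_one] at hu
  apply hfV
  rw [hu, ← hQ]
  exact (u : Q.toValuationSubring).2

end

end Fermat.Agent.S18.H73
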