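/-
S18 (helper73), leaf T-CONST, `r`-free route: `ConstStatement (ResidueField A) N`.

"An element of the reduced function field `F_k = k(j(q^d) : d ∣ N)` without zeros and poles is
constant", for `k` algebraically closed of characteristic `ℓ ∤ N`:
`F_k` is finite over `k(j(q^N))` (landed S28), hence every nontrivial valuation subring of `F_k`
over `k` is discrete (`FunctionFieldPlaces.lean`), hence a Prelude place; a non-constant element
has a pole at some valuation subring (Chevalley).
-/
import Fermat.Agent.S18.H73.Red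
import Fermat.Agent.S18.H73.FunctionFieldPlaces
import Fermat.Agent.S28.H53.Final
import Fermat.Agent.S28.H23.HasModPolys

set_option autoImplicit false

open IntermediateField AlgebraicCurve ModularCurve

namespace Fermat.Agent.S18.H73

noncomputable section

section Bounded

variable {K E : Type*} [Field K] [Field E] [Algebra K E]

/-- If `B` is finite over `A = K(t)` (positive relative rank), then `B`, as a field, has bounded
degree over its intermediate field `K(t)`. -/
theorem boundedDegree_of_relfinrank_pos (B : IntermediateField K E) (t : E) (htB : t ∈ B)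
    (hpos : 0 < IntermediateField.relfinrank K⟮t⟯ B) :
    BoundedDegree (K⟮(⟨t, htB⟩ : ↥B)⟯ : IntermediateField K ↥B)
      (IntermediateField.relfinrank K⟮t⟯ B) := by
  have hAB : K⟮t⟯ ≤ B := by
    rw [adjoin_simple_le_iff]
    exact htB
  intro x
  have hfin : IntermediateField.relfinrank K⟮t⟯ B =
      Module.finrank ↥(K⟮t⟯) ↥(extendScalars hAB) :=
    IntermediateField.relfinrank_eq_finrank_of_le hAB
  have hpos' : 0 < Module.finrank ↥(K⟮t⟯) ↥(extendScalars hAB) := hfin ▸ hpos
  have : Module.Finite ↥(K⟮t⟯) ↥(extendScalars hAB) := Module.finite_of_finrank_pos hpos'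
  let x' : ↥(extendScalars hAB) := ⟨(x : E), x.2⟩
  have hnot : ¬ LinearIndependent ↥(K⟮t⟯)
      (fun i : Fin (IntermediateField.relfinrank K⟮t⟯ B + 1) => x' ^ (i : ℕ)) := by
    intro hli
    have h1 := hli.fintype_card_le_finrank
    rw [Fintype.card_fin, ← hfin] at h1
    omega
  obtain ⟨g, hsum, i₀, hi₀⟩ := Fintype.not_linearIndependent_iff.mp hnot
  have hmem : ∀ i, (⟨(g i : E), hAB (g i).2⟩ : ↥B) ∈ K⟮(⟨t, htB⟩ : ↥B)⟯ := by
    intro i
    have h1 : (g i : E) ∈ (K⟮(⟨t, htB⟩ : ↥B)⟯).map B.val := by
      rw [adjoin_map, Set.image_singleton]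
      exact (g i).2
    obtain ⟨y, hy, hyE⟩ := h1
    have h2 : y = ⟨(g i : E), hAB (g i).2⟩ := Subtype.ext hyE
    rwa [h2] at hy
  refine ⟨fun i => ⟨⟨(g i : E), hAB (g i).2⟩, hmem i⟩, ?_, ?_⟩
  · intro h0
    apply hi₀
    have h1 := congrFun h0 i₀
    have h2 : (g i₀ : E) = 0 := congrArg (fun z : ↥(K⟮(⟨t, htB⟩ : ↥B)⟯) => ((z : ↥B) : E)) h1
    exact Subtype.ext h2
  · apply Subtype.ext
    have h1 := congrArg (fun z : ↥(extendScalars hAB) => (z : E)) hsum
    simp only [IntermediateField.coe_sum, IntermediateField.coe_smul, IntermediateField.coe_pow,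
      ZeroMemClass.coe_zero] at h1
    simp only [IntermediateField.coe_sum, IntermediateField.coe_mul, IntermediateField.coe_pow,
      ZeroMemClass.coe_zero]
    rw [← h1]
    refine Finset.sum_congr rfl fun i _ => ?_
    rfl

end Bounded

section Modular

open Fermat.Agent.S28

theorem dedekindPsi_pos' {N : ℕ} (hN : N ≠ 0) : 0 < dedekindPsi N := by
  unfold dedekindPsi
  have h1 : (1 : ℕ) ∈ N.divisors.filter (fun d => Squarefree d) := by
    rw [Finset.mem_filter]
    exact ⟨Nat.one_mem_divisors.mpr hN, squarefree_one⟩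
  have h2 := Finset.single_le_sum (f := fun d => N / d) (fun _ _ => Nat.zero_le _) h1
  simp only [Nat.div_one] at h2
  omega

/-- The reduced function field has bounded degree over `k(j(q^N))` (landed S28). -/
theorem exists_boundedDegree_fullC (K : Type) [Field K] [IsAlgClosed K] (ℓ : ℕ)
    [Fact ℓ.Prime] [CharP K ℓ] (N : ℕ) (hN : N ≠ 0) (hℓN : ¬ ℓ ∣ N) :
    ∃ (t₀ : ↥(modularFunctionFieldFullC K N)) (n : ℕ),
      BoundedDegree (K⟮t₀⟯ : IntermediateField K ↥(modularFunctionFieldFullC K N)) n := by
  have : NeZero N := ⟨hN⟩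
  have h1 := dedekindPsi_le_relfinrank_algClosed H23.hasModPolys K ℓ N hN hℓN
  rw [H53.adjoin_setOf_jS_eq_full K N hN] at h1
  have hpos : 0 < IntermediateField.relfinrank K⟮jS K 1 N⟯ (modularFunctionFieldFullC K N) :=
    lt_of_lt_of_le (dedekindPsi_pos' hN) h1
  have htB : jS K 1 N ∈ modularFunctionFieldFullC K N := by
    rw [H53.jS_one_left]
    exact jqModCd_mem_full K N dvd_rfl
  exact ⟨⟨jS K 1 N, htB⟩, _, boundedDegree_of_relfinrank_pos _ _ htB hpos⟩

/-- **T-CONST** over an algebraically closed field of characteristic `ℓ ∤ N`. -/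
theorem constStatement_of_isAlgClosed (K : Type) [Field K] [IsAlgClosed K] (ℓ : ℕ)
    [Fact ℓ.Prime] [CharP K ℓ] (N : ℕ) (hN : N ≠ 0) (hℓN : ¬ ℓ ∣ N) : ConstStatement K N := by
  obtain ⟨t₀, n, hn⟩ := exists_boundedDegree_fullC K ℓ N hN hℓN
  intro f hf hord
  exact exists_eq_algebraMap_of_forall_ord_eq_zero t₀ n hn f hf hord

end Modular

section Residue

variable {L : Type*} [Field L]

/-- The residue field of a valuation subring of an algebraically closed field is algebraically
closed. -/
theorem isAlgClosed_residueField [IsAlgClosed L] (A : ValuationSubring L) :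
    IsAlgClosed (IsLocalRing.ResidueField A) := by
  apply IsAlgClosed.of_exists_root
  intro p hp hirr
  have hsurj : Function.Surjective (IsLocalRing.residue A) := IsLocalRing.residue_surjective
  have hlift : p ∈ Polynomial.lifts (IsLocalRing.residue A) :=
    (Polynomial.mem_lifts p).mpr (Polynomial.map_surjective _ hsurj p)
  obtain ⟨q, hq, hdeg, hqmonic⟩ := Polynomial.lifts_and_degree_eq_and_monic hlift hp
  have hdeg0 : (q.map A.subtype).degree ≠ 0 := by
    rw [Polynomial.degree_map_eq_of_injective (f := A.subtype) (fun a b h => Subtype.ext h), hdeg]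
    exact (Polynomial.degree_pos_of_irreducible hirr).ne'
  obtain ⟨x, hx⟩ := IsAlgClosed.exists_root (q.map A.subtype) hdeg0
  have hint : IsIntegral A x := ⟨q, hqmonic, by
    have h1 : Polynomial.eval₂ (algebraMap A L) x q = Polynomial.eval x (q.map A.subtype) := by
      rw [Polynomial.eval_map]
      rfl
    rw [h1]
    exact hx⟩
  obtain ⟨y, hy⟩ := IsIntegrallyClosed.algebraMap_eq_of_integral hint
  refine ⟨IsLocalRing.residue A y, ?_⟩
  have hqy : q.eval y = 0 := by
    have h2 : A.subtype y = x := hy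
    have h3 : A.subtype (q.eval y) = 0 := by
      rw [← Polynomial.eval_map_apply, h2]
      exact hx
    exact Subtype.ext h3
  rw [← hq, Polynomial.eval_map_apply, hqy, map_zero]

/-- The residue field of a valuation subring lying over the prime `ℓ` has characteristic `ℓ`. -/
theorem charP_residueField (A : ValuationSubring L) {ℓ : ℕ} (hℓ : ℓ.Prime)
    (hA : A.LiesOverPrime ℓ) : CharP (IsLocalRing.ResidueField A) ℓ := by
  rw [CharP.charP_iff_prime_eq_zero hℓ]
  obtain ⟨hmem, hmax⟩ := A.mem_nonunits_iff_exists_mem_maximalIdeal.mp hA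
  have h2 : ((ℓ : ℕ) : A) = ⟨(ℓ : L), hmem⟩ := Subtype.ext (by simp)
  have h3 : IsLocalRing.residue A ((ℓ : ℕ) : A) = 0 := by
    rw [IsLocalRing.residue_eq_zero_iff, h2]
    exact hmax
  rw [← h3, map_natCast]

end Residue

/-- **T-CONST**: the constancy statement consumed by `stepI_of`, for the residue field of a
valuation subring of `ℚ̄` lying over a prime `ℓ ∤ N`. -/
theorem constStatement_residueField (N : ℕ) [NeZero N] {ℓ : ℕ} [Fact ℓ.Prime] (hℓN : ¬ ℓ ∣ N)
    (A : ValuationSubring (AlgebraicClosure ℚ)) (hA : A.LiesOverPrime ℓ) :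
    ConstStatement (IsLocalRing.ResidueField A) N := by
  have h1 : IsAlgClosed (IsLocalRing.ResidueField A) := isAlgClosed_residueField A
  have h2 : CharP (IsLocalRing.ResidueField A) ℓ := charP_residueField A Fact.out hA
  exact constStatement_of_isAlgClosed (IsLocalRing.ResidueField A) ℓ N (NeZero.ne N) hℓN

end

end Fermat.Agent.S18.H73
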