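/-
S18 (helper73): `stepI` of the Program J skeleton, UNCONDITIONAL on the reduction side:
S18 follows from Theorem T (one-unit form, prime exponents `p ≠ ℓ`) at level `N`.
= `stepI_of` (RED) + `constStatement_residueField` (T-CONST, `r`-free route).
-/
import Fermat.Agent.S18.H73.StepI
import Fermat.Agent.S18.H73.Const

set_option autoImplicit false

open HahnSeries IntermediateField AlgebraicCurve ModularCurve

namespace Fermat.Agent.S18.H73

/-- **stepI**: S18 from Theorem T at level `N` for all prime exponents `p ≠ ℓ`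
(the hypothesis `hT` is the unfolded form of the skeleton's `∀ p, p.Prime → p ≠ ℓ → TheoremT A N p`). -/
theorem stepI (N : ℕ) [NeZero N] {ℓ : ℕ} [Fact ℓ.Prime] (hℓN : ¬ ℓ ∣ N)
    (A : ValuationSubring (AlgebraicClosure ℚ)) (hA : A.LiesOverPrime ℓ)
    (h : ModularCurve.ReductionInputsModL A N)
    (hT : ∀ p : ℕ, p.Prime → p ≠ ℓ → ∀ u : ↥(modularFunctionFieldBar N),
      (∃ y₁ y₂ : LaurentSeries A,
        coeffMap (IsLocalRing.residue A) y₁ = coeffMap (IsLocalRing.residue A) y₂ ∧
        coeffMap (IsLocalRing.residue A) y₂ ≠ 0 ∧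
        coeffMap A.subtype y₁ ∈ modularFunctionFieldBar N ∧
        (u : LaurentSeries (AlgebraicClosure ℚ)) * coeffMap A.subtype y₂ =
          coeffMap A.subtype y₁) →
      (∀ P : Place (AlgebraicClosure ℚ) ↥(modularFunctionFieldBar N), (p : ℤ) ∣ P.ord u) →
      ∃ (c : AlgebraicClosure ℚ) (w : ↥(modularFunctionFieldBar N)), c ≠ 0 ∧
        u = algebraMap (AlgebraicClosure ℚ) ↥(modularFunctionFieldBar N) c * w ^ p)
    (m : ℕ) (hm : ¬ ℓ ∣ m) (z : ModularCurve.JZero N)
    (hmz : m • z = 0) (hz : ModularCurve.reductionModL A N z = 0) : z = 0 :=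
  stepI_of N A h hT (constStatement_residueField N hℓN A hA) m hm z hmz hz

end Fermat.Agent.S18.H73
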